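/-
M59 / box [C] Mazur at `(p, q) = (3, 2)`, cell [GEO-32r], sub-cell [COMP-3] (helper28).  Prefix `m59h3c_`.

ABSTRACT LAYER OF THE RECUT WEIGHTS.  `φ, ψ : F → F'` function fields over `K`, `B = s44he_B φ ψ … m SS`
(S44/HeckeRes/AbsHK.lean).  Main's `twfh_B_eis_of_unit` proves `B (1/kk) = n • (1/kk)` for the weights
`kk_Q = (ord_Q ū mod m)⁻¹`, which needs `ord_Q ū` to be a unit mod `m`.  When all `ord_Q ū` (`Q ∈ SS`) are
divisible by a common integer `d ≠ 0` (in use: `d = 3 = m`), the SAME identity holds for the recut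
weights `kk_Q = (v_Q mod m)⁻¹`, `v_Q = ord_Q ū / d`: the identity
`n · ord_Q ū = Σ_{w ↦ Q} e_φ(w) f_ψ(w) ord_{w|φ} ū` of `s44hk_ord_corr_sum` holds over `ℤ`, so it can be
divided by `d` BEFORE the reduction mod `m`.

* `m59h3c_B_eis_div`  : the abstract statement;
* `m59h3c_zmod_*`     : arithmetic of the weights in `ZMod m`.
-/
import Mathlib
import Fermat.Agent.S44.HeckeRes.AbsEis

set_option autoImplicit false
set_option linter.style.haveILetI false
set_option linter.unusedSectionVars false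

noncomputable section

namespace Fermat.Agent.M59

open AlgebraicCurve Fermat.Agent.S35 Fermat.Agent.S44

universe u v w
variable {K : Type u} {F : Type v} {F' : Type w} [Field K] [Field F] [Field F'] [Algebra K F]
  [Algebra K F'] [HasPrincipalDivisors K F']
variable (φ ψ : F →ₐ[K] F') (hφ : φ.toRingHom.IsIntegral) (hψ : ψ.toRingHom.IsIntegral)
variable (m : ℕ) (SS : Set (Place K F))

/-- **(E3-EIS) for recut weights**: if `ord_Q ub = d · v_Q` on `SS` (`d ≠ 0`), `ord ub = 0` at the places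
`w|_φ ∉ SS` with `w|_ψ ∈ SS`, `ord_Q N_ψ(φ ub) = n · ord_Q ub` on `SS` and `kk_Q · v_Q = 1` in `ZMod m`,
then `B (1/kk) = n • (1/kk)`. -/
theorem m59h3c_B_eis_div (hfin : FiniteAlong K ψ)
    (hN : NormFormulaAlong K ψ hfin) (kk : ↥SS → ZMod m) (n : ℕ) {ub : F} (hub : ub ≠ 0)
    {D : Divisor K F} (hD : ∀ v : Place K F, D v = v.ord ub)
    (hT : ∀ Q : ↥SS, (Q : Place K F).ord (s35pe_normAlong ψ (φ ub)) =
      (n : ℤ) * (Q : Place K F).ord ub)
    {d : ℤ} (hd : d ≠ 0) (v : ↥SS → ℤ) (hv : ∀ Q : ↥SS, (Q : Place K F).ord ub = d * v Q)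
    (hSS : ∀ Q : ↥SS, kk Q * ((v Q : ℤ) : ZMod m) = 1)
    (hoff : ∀ w : Place K F', w.restrictAlong ψ hψ ∈ SS → w.restrictAlong φ hφ ∉ SS →
      (w.restrictAlong φ hφ).ord ub = 0) :
    s44he_B φ ψ hφ hψ m SS (fun Q => (kk Q)⁻¹) = (n : ZMod m) • fun Q => (kk Q)⁻¹ := by
  classical
  have hinv : ∀ Q : ↥SS, (kk Q)⁻¹ = ((v Q : ℤ) : ZMod m) :=
    fun Q => ZMod.inv_eq_of_mul_eq_one m _ _ (hSS Q)
  have hfun : (fun Q : ↥SS => (kk Q)⁻¹) = fun Q : ↥SS => ((v Q : ℤ) : ZMod m) := funext hinv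
  rw [hfun]
  funext Q
  -- the extension of `v` by zero, over `ℤ`
  set vt : Place K F → ℤ := fun P => if h : P ∈ SS then v ⟨P, h⟩ else 0 with hvt
  have hext : ∀ P : Place K F,
      s44he_ext m SS (fun Q' : ↥SS => ((v Q' : ℤ) : ZMod m)) P = ((vt P : ℤ) : ZMod m) := by
    intro P
    by_cases h : P ∈ SS
    · rw [s44he_ext_mem m SS _ h, hvt]
      simp only [dif_pos h]
    · rw [s44he_ext_not_mem m SS _ h, hvt]
      simp only [dif_neg h, Int.cast_zero]
  -- the integral identity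
  have h1 := s44hk_ord_corr_sum φ ψ hφ hψ hfin hN hub hD (Q : Place K F)
  rw [hT Q, hv Q] at h1
  have h2 : ∀ w ∈ Place.fiberAlong ψ hψ (Q : Place K F),
      ((w.ramificationIndexAlong φ : ℤ) * (w.restrictAlong φ hφ).ord ub) *
          (w.inertiaDegAlong ψ hψ : ℤ) =
        d * (((w.ramificationIndexAlong φ : ℤ) * vt (w.restrictAlong φ hφ)) *
          (w.inertiaDegAlong ψ hψ : ℤ)) := by
    intro w hw
    have hQ : w.restrictAlong ψ hψ = (Q : Place K F) := Place.mem_fiberAlong.mp hw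
    have e : (w.restrictAlong φ hφ).ord ub = d * vt (w.restrictAlong φ hφ) := by
      by_cases h : w.restrictAlong φ hφ ∈ SS
      · rw [hvt]
        simp only [dif_pos h]
        exact hv ⟨_, h⟩
      · rw [hvt]
        simp only [dif_neg h, mul_zero]
        exact hoff w (by rw [hQ]; exact Q.2) h
    rw [e]
    ring
  rw [Finset.sum_congr rfl h2, ← Finset.mul_sum] at h1
  have h3 : (n : ℤ) * v Q = ∑ w ∈ Place.fiberAlong ψ hψ (Q : Place K F),
      ((w.ramificationIndexAlong φ : ℤ) * vt (w.restrictAlong φ hφ)) *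
        (w.inertiaDegAlong ψ hψ : ℤ) := by
    have h4 : d * ((n : ℤ) * v Q) = d * ∑ w ∈ Place.fiberAlong ψ hψ (Q : Place K F),
        ((w.ramificationIndexAlong φ : ℤ) * vt (w.restrictAlong φ hφ)) *
          (w.inertiaDegAlong ψ hψ : ℤ) := by
      rw [← h1]
      ring
    exact mul_left_cancel₀ hd h4
  rw [s44he_B_apply, Pi.smul_apply, smul_eq_mul]
  have h5 := congrArg (fun z : ℤ => (z : ZMod m)) h3
  simp only [Int.cast_mul, Int.cast_natCast, Int.cast_sum] at h5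
  rw [h5]
  refine Finset.sum_congr rfl fun w _ => ?_
  rw [hext]
  ring

/-! ### arithmetic of the weights -/

/-- `a ∣ 12`, `a = d v`, `d e = 12`, `e` a unit mod `m` ⟹ `v` is a unit mod `m`. -/
theorem m59h3c_zmod_isUnit {m : ℕ} {a d e v : ℤ} (ha : a ∣ 12) (hav : a = d * v) (hde : d * e = 12)
    (he : IsUnit ((e : ℤ) : ZMod m)) : IsUnit ((v : ℤ) : ZMod m) := by
  obtain ⟨T, hT⟩ := ha
  have hd : d ≠ 0 := by
    rintro rfl
    rw [zero_mul] at hde
    norm_num at hde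
  have h1 : v * T = e := by
    have : d * (v * T) = d * e := by rw [hde, hT, hav]; ring
    exact mul_left_cancel₀ hd this
  have h2 : ((v : ℤ) : ZMod m) * ((T : ℤ) : ZMod m) = ((e : ℤ) : ZMod m) := by
    rw [← Int.cast_mul, h1]
  exact isUnit_of_mul_isUnit_left (h2 ▸ he)

/-- the slope form of the recut weights: `T a = 12`, `a = d v`, `d e = 12` ⟹ `v⁻¹ b = e⁻¹ (T b)` in
`ZMod m`. -/
theorem m59h3c_zmod_inv_mul {m : ℕ} {a d e v T b : ℤ} (hu : T * a = 12) (hav : a = d * v)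
    (hde : d * e = 12) (he : IsUnit ((e : ℤ) : ZMod m)) :
    (((v : ℤ) : ZMod m))⁻¹ * ((b : ℤ) : ZMod m) =
      (((e : ℤ) : ZMod m))⁻¹ * (((T * b : ℤ) : ℤ) : ZMod m) := by
  have hd : d ≠ 0 := by
    rintro rfl
    rw [zero_mul] at hde
    norm_num at hde
  have h1 : T * v = e := by
    have : d * (T * v) = d * e := by rw [hde, ← hu, hav]; ring
    exact mul_left_cancel₀ hd this
  have h2 : ((T : ℤ) : ZMod m) * ((v : ℤ) : ZMod m) = ((e : ℤ) : ZMod m) := by
    rw [← Int.cast_mul, h1]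
  have hv : IsUnit ((v : ℤ) : ZMod m) := isUnit_of_mul_isUnit_right (h2 ▸ he)
  have h3 : (((v : ℤ) : ZMod m))⁻¹ = (((e : ℤ) : ZMod m))⁻¹ * ((T : ℤ) : ZMod m) := by
    have h4 : (((e : ℤ) : ZMod m))⁻¹ * ((T : ℤ) : ZMod m) * ((v : ℤ) : ZMod m) = 1 := by
      rw [mul_assoc, h2, ZMod.inv_mul_of_unit _ he]
    exact ZMod.inv_eq_of_mul_eq_one m _ _ (by rw [mul_comm]; exact h4)
  rw [h3]
  push_cast
  ring

end Fermat.Agent.M59
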