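/-
M59 / box [C] Mazur at `(p, q) = (3, 2)`, cell [GEO-32r], sub-cell [COMP-3] (helper28).  Prefix `m59h3c_`.

**(Z3) + (Z4) `twf_CompCells` WITH RECUT WEIGHTS, THROUGH THE HESSE COVER, FOR AN EXPONENT `m` NOT PRIME TO
`6`** (in use `m = 3`, `q = 2`, level `M` `3`-rigid).  Residue characteristic `q` prime to `3`, `q ∤ M`.

INPUTS (both cover-free Props of main's vocabulary):
* `hOrd : twfr_OrdOff A hA M hqM m`  — (E2-ord) at the exponent `m`;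
* `hN1 : ∀ i : Sg, d ∣ ord_{Q_i} ū`  — (N1) (`d = 3`): the orders of the reduced modular unit at the
  supersingular places have the common divisor `d`, with `d · e = 12` and `e` a unit mod `m`
  (`d = 3`, `e = 4`, `m = 3`).
OUTPUT: `twf_CompCells A M hqM m ∅ k B` with `B = twfh_B` (main's operator, unchanged) and the RECUT
weights `k_Q = (v_Q mod m)⁻¹`, `v_Q = ord_Q ū / d` (so `k_Q ≡ T_Q / e`, `T_Q · ord_Q ū = 12`).

* `m59h3c_k_isUnit`, `m59h3c_mono` (from `m59h2_twfm_pairs_gen`: any `m ≠ 0`), `m59h3c_heckeRes`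
  (twin of `m59h2_twfh_heckeRes` with (E2-ord) as a hypothesis), `m59h3c_BEis` (`m59h3c_B_eis_div`);
* `m59h3c_compCells`, and the instance `m59h3c_compCells_three` (`d = 3`, `e = 4`, `m = 3`).
-/
import Mathlib
import Fermat.Agent.TW.Easy.GeoSeam
import Fermat.Agent.M59.Hesse2.Res.HesHeckeRes
import Fermat.Agent.M59.Hesse2.Mono.HesMonoMain
import Fermat.Agent.M59.Hesse2.Res3.CompAbs

set_option autoImplicit false
set_option linter.unusedSectionVars false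
set_option linter.style.haveILetI false
set_option linter.unusedVariables false
set_option synthInstance.maxHeartbeats 400000
set_option maxHeartbeats 1600000

noncomputable section

namespace Fermat.Agent.M59

open ModularCurve AlgebraicCurve IsLocalRing Fermat.Agent.MZ Fermat.Agent.JT3 Fermat.Agent.S35
  Fermat.Agent.S24 Fermat.Agent.S28 Fermat.Agent.S44 Fermat.Agent.TW

local notation "Qb" => AlgebraicClosure ℚ

section Defs

variable (A : ValuationSubring Qb) {q : ℕ} [hq : Fact q.Prime]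
  (M : ℕ) [NeZero M] [NeZero q] [NeZero (M * q)] (hqM : ¬ q ∣ M)

/-- `v_Q := ord_Q ū / d`. -/
def m59h3c_v (d : ℤ) (i : s44e_Sg A M q hq.out hqM) : ℤ :=
  Place.ord i.1 (s44e_ubar A M q) / d

/-- **the recut weights**: `k_Q = (v_Q mod m)⁻¹`. -/
def m59h3c_k (d : ℤ) (m : ℕ) (i : s44e_Sg A M q hq.out hqM) : ZMod m :=
  (((m59h3c_v A M hqM d i : ℤ)) : ZMod m)⁻¹

end Defs

section Comp

variable (A : ValuationSubring Qb) {q : ℕ} [hq : Fact q.Prime] (hA : A.LiesOverPrime q)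
  (M : ℕ) [NeZero M] [NeZero q] [NeZero (M * q)] (hqM : ¬ q ∣ M) (hq3 : ¬ 3 ∣ q)
  {d e : ℤ} (hde : d * e = 12) {m : ℕ} (hm0 : m ≠ 0) (he : IsUnit ((e : ℤ) : ZMod m))
  (hN1 : ∀ i : s44e_Sg A M q hq.out hqM, d ∣ Place.ord i.1 (s44e_ubar A M q))

include hN1 in
theorem m59h3c_ord_eq (i : s44e_Sg A M q hq.out hqM) :
    Place.ord i.1 (s44e_ubar A M q) = d * m59h3c_v A M hqM d i :=
  (Int.mul_ediv_cancel' (hN1 i)).symm

include hA hq3 hde he hN1 in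
theorem m59h3c_v_isUnit (i : s44e_Sg A M q hq.out hqM) :
    IsUnit (((m59h3c_v A M hqM d i : ℤ)) : ZMod m) :=
  m59h3c_zmod_isUnit (m59h2_twfh_ord_ubar_dvd A hA M hqM hq3 i) (m59h3c_ord_eq A M hqM hN1 i) hde he

include hA hq3 hde he hN1 in
/-- `k_Q · (v_Q mod m) = 1`. -/
theorem m59h3c_k_mul_v (i : s44e_Sg A M q hq.out hqM) :
    m59h3c_k A M hqM d m i * (((m59h3c_v A M hqM d i : ℤ)) : ZMod m) = 1 :=
  ZMod.inv_mul_of_unit _ (m59h3c_v_isUnit A hA M hqM hq3 hde he hN1 i)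

include hA hq3 hde he hN1 in
/-- field `k_unit`. -/
theorem m59h3c_k_isUnit (i : s44e_Sg A M q hq.out hqM) : IsUnit (m59h3c_k A M hqM d m i) :=
  IsUnit.of_mul_eq_one _ (m59h3c_k_mul_v A hA M hqM hq3 hde he hN1 i)

attribute [local instance] s44kq_lsAction

include hA hq3 hde hm0 he hN1 in
/-- field `mono`: for `V ∈ J₀(M q)[m]` fixed by the inertia group of `A ∣ q`, the weighted residues
`k_i · ν_i(V)` at the supersingular places are all equal (recut weights; no condition on `m`). -/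
theorem m59h3c_mono {V : JZero (M * q)} (hV : m • V = 0)
    (hfix : ∀ σ ∈ A.inertiaSubgroupIn ℚ, σ • V = V) :
    ∃ c : ZMod m, ∀ i : s44e_Sg A M q hq.out hqM,
      m59h3c_k A M hqM d m i * twfr_nu A M q hq.out hqM m V i = c := by
  refine s44mend_exists_c _ (fun i i' => ?_)
  obtain ⟨fb, T, T', hFb, hu, hu', hc⟩ :=
    m59h2_twfm_pairs_gen A hA M hqM hq3 hm0 hV hfix i.1 i'.1 i.2 i'.2
  have e1 := twfr_nuAll_eq A hq.out hA M (Nat.pos_of_ne_zero hm0) (s44rd_hmem A hA M hqM) hFb i.1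
  have e2 := twfr_nuAll_eq A hq.out hA M (Nat.pos_of_ne_zero hm0) (s44rd_hmem A hA M hqM) hFb i'.1
  show (((m59h3c_v A M hqM d i : ℤ)) : ZMod m)⁻¹ * twfr_nuAll A M q m V i.1 =
    (((m59h3c_v A M hqM d i' : ℤ)) : ZMod m)⁻¹ * twfr_nuAll A M q m V i'.1
  rw [e1, e2, m59h3c_zmod_inv_mul hu (m59h3c_ord_eq A M hqM hN1 i) hde he,
    m59h3c_zmod_inv_mul hu' (m59h3c_ord_eq A M hqM hN1 i') hde he,
    (ZMod.intCast_eq_intCast_iff _ _ m).2 hc]

include hm0 in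
/-- field `heckeRes`: `ν (T_ℓ z) = B_ℓ (ν z)` on `J₀(M q)[m]`, every prime `ℓ ∤ M q`, from (E2-ord) at the
exponent `m` (twin of `m59h2_twfh_heckeRes`, with (E2-ord) as a hypothesis). -/
theorem m59h3c_heckeRes (hOrd : twfr_OrdOff A hA M hqM m) (ℓ : Nat.Primes)
    (hℓN : ¬ (ℓ : ℕ) ∣ M * q) (z : JZero (M * q)) (hz : m • z = 0) :
    twfr_nu A M q hq.out hqM m (heckeOperatorBar (M * q) ℓ z) =
      twfh_B A hA M hqM m ℓ (twfr_nu A M q hq.out hqM m z) := by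
  haveI : NeZero (ℓ : ℕ) := ⟨ℓ.2.ne_zero⟩
  haveI : CharP (ResidueField ↥A) q := jcr_charP A hA
  haveI : IsAlgClosed (ResidueField ↥A) := jcr_isAlgClosed A
  have hm := Nat.pos_of_ne_zero hm0
  have hqℓ : ¬ q ∣ (ℓ : ℕ) := s44hz_not_dvd M ℓ.2 hℓN
  haveI hPD' := s44hd_hasPrincipalDivisorsC A hA M (ℓ : ℕ) hqM hqℓ
  have hmem := s44rd_hmem A hA M hqM
  have hfb := twfr_fbar_spec' A hA M hqM hm0 hz
  have hT := twfh_fbar_hecke A hA M hqM ℓ hℓN hfb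
  obtain ⟨_, _, _, hfin, _, hN⟩ := s44hd_heckeInputsC A hA M (ℓ : ℕ) hqM hqℓ
  haveI hPD : HasPrincipalDivisors (ResidueField ↥A)
      ↥(modularFunctionFieldFullC (ResidueField ↥A) M) :=
    rt_hasPrincipalDivisors (jcr_isSepGen (k := ResidueField ↥A) M hqM
      (vx_rho q (ResidueField ↥A)))
  obtain ⟨D, hD, -⟩ := hPD.exists_divisor (twfr_fbar A M q m z) hfb.1
  rw [twfh_B_eq A hA M hqM m ℓ hℓN]
  funext i
  have h1 := s44he_ord_B' (mzrh_beC (ResidueField ↥A) M (ℓ : ℕ))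
    (mzrh_alC (ResidueField ↥A) M (ℓ : ℕ))
    (s44hz_beC_isIntegral A hA M hqM (ℓ : ℕ) hqℓ)
    (s44hd_alC_isIntegral A hA M (ℓ : ℕ) hqM hqℓ) m
    {Q | s44e_IsSS A M q hq.out hqM Q} hfin hN hfb.1 hD
    (fun w _ hw' => twfr_ord_off_of_Fbar A hA M hqM hm0 hOrd hfb _ hw')
    ⟨i.1, i.2⟩
  show twfr_nuAll A M q m (heckeOperatorBar (M * q) ℓ z) i.1 = _
  rw [twfr_nuAll_eq A hq.out hA M hm hmem hT i.1]
  exact h1

include hq3 hde he hN1 in
/-- field `B_eis`: `B_ℓ (1/k) = (ℓ + 1) (1/k)` for the recut weights, every prime `ℓ ∤ M q`. -/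
theorem m59h3c_BEis (ℓ : Nat.Primes) (hℓN : ¬ (ℓ : ℕ) ∣ M * q) :
    twfh_B A hA M hqM m ℓ (fun i => (m59h3c_k A M hqM d m i)⁻¹) =
      (((ℓ : ℕ) : ZMod m) + 1) • fun i => (m59h3c_k A M hqM d m i)⁻¹ := by
  haveI : NeZero (ℓ : ℕ) := ⟨ℓ.2.ne_zero⟩
  haveI : CharP (ResidueField ↥A) q := jcr_charP A hA
  haveI : IsAlgClosed (ResidueField ↥A) := jcr_isAlgClosed A
  have hℓ : (ℓ : ℕ).Prime := ℓ.2
  have hqℓ : ¬ q ∣ (ℓ : ℕ) := s44hz_not_dvd M ℓ.2 hℓN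
  have hℓM : ¬ (ℓ : ℕ) ∣ M := fun h => hℓN (h.mul_right q)
  have hqMℓ : ¬ q ∣ M * (ℓ : ℕ) := fun h => (hq.out.dvd_mul.mp h).elim hqM hqℓ
  haveI hPD' := s44hd_hasPrincipalDivisorsC A hA M (ℓ : ℕ) hqM hqℓ
  rw [twfh_B_eq A hA M hqM m ℓ hℓN]
  obtain ⟨_, _, _, hfin, _, hN⟩ := s44hd_heckeInputsC A hA M (ℓ : ℕ) hqM hqℓ
  haveI hPD : HasPrincipalDivisors (ResidueField ↥A)
      ↥(modularFunctionFieldFullC (ResidueField ↥A) M) :=
    rt_hasPrincipalDivisors (jcr_isSepGen (k := ResidueField ↥A) M hqM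
      (vx_rho q (ResidueField ↥A)))
  have hub : s44e_ubar A M q ≠ 0 := s44hu_e_ubar_ne_zero A hA M hqM
  obtain ⟨D, hD, -⟩ := hPD.exists_divisor (s44e_ubar A M q) hub
  have hdeg := s44hd_finrank_alC A hA M (ℓ : ℕ) hℓ hℓM hqM hqMℓ
  have h1 : (((ℓ : ℕ) : ZMod m)) + 1 = (((ℓ : ℕ) + 1 : ℕ) : ZMod m) := by push_cast; rfl
  have hd0 : d ≠ 0 := by
    rintro rfl
    rw [zero_mul] at hde
    norm_num at hde
  rw [h1]
  refine m59h3c_B_eis_div (mzrh_beC (ResidueField ↥A) M (ℓ : ℕ))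
    (mzrh_alC (ResidueField ↥A) M (ℓ : ℕ)) _ _ m {Q | s44e_IsSS A M q hq.out hqM Q} hfin hN
    (fun i => m59h3c_k A M hqM d m i) ((ℓ : ℕ) + 1) hub hD ?_ hd0
    (fun i => m59h3c_v A M hqM d i) ?_ ?_ ?_
  · intro Q
    rw [s44hu_ubar_eq A hA M hqM]
    exact s44hu_ord_hecke A hA rfl hqM (ℓ : ℕ) hqMℓ hℓ hℓN hdeg
      (s44hu_unit_hecke q (M * q) (s44hu_dvd rfl) (ℓ : ℕ) hℓ hℓN) Q.1
  · intro Q
    exact m59h3c_ord_eq A M hqM hN1 Q
  · intro Q
    exact m59h3c_k_mul_v A hA M hqM hq3 hde he hN1 Q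
  · intro w hw hw'
    have h2 : mzrh_alC (ResidueField ↥A) M (ℓ : ℕ) (jcr_j (k := ResidueField ↥A) M) ∈
        w.toValuationSubring := hw.1
    have h3 : mzrh_beC (ResidueField ↥A) M (ℓ : ℕ) (jcr_j (k := ResidueField ↥A) M) ∈
        w.toValuationSubring :=
      s44hu_noncusp (ResidueField ↥A) (vx_rho q (ResidueField ↥A)) M (ℓ : ℕ) hqℓ
        w.toValuationSubring w.algebraMap_mem' h2
    exact m59h2_twfh_ord_ubar_off A hA M hqM hq3 _ h3 hw'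

include hq3 hde hm0 he hN1 in
/-- **(Z3) + (Z4) with recut weights**: `twf_CompCells A M hqM m ∅ k twfh_B`, `k = m59h3c_k`, from
(E2-ord) at the exponent `m` and the common divisor `d` of the `ord_Q ū`. -/
theorem m59h3c_compCells (hOrd : twfr_OrdOff A hA M hqM m) :
    twf_CompCells A M hqM m ∅ (m59h3c_k A M hqM d m) (twfh_B A hA M hqM m) := by
  refine ⟨?_, ?_, ?_, ?_⟩
  · exact fun i => m59h3c_k_isUnit A hA M hqM hq3 hde he hN1 i
  · intro z hz hfix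
    exact m59h3c_mono A hA M hqM hq3 hde hm0 he hN1 hz hfix
  · intro ℓ hℓN _ z hz
    exact m59h3c_heckeRes A hA M hqM hm0 hOrd ℓ hℓN z hz
  · intro ℓ hℓN _
    exact m59h3c_BEis A hA M hqM hq3 hde he hN1 ℓ hℓN

end Comp

section Three

variable (A : ValuationSubring Qb) {q : ℕ} [hq : Fact q.Prime] (hA : A.LiesOverPrime q)
  (M : ℕ) [NeZero M] [NeZero q] [NeZero (M * q)] (hqM : ¬ q ∣ M) (hq3 : ¬ 3 ∣ q)

include hq3 in
/-- **[COMP-3]**: at the exponent `3`, from (E2-ord) at `3` and (N1) `3 ∣ ord_Q ū` on `Sg`. -/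
theorem m59h3c_compCells_three (hOrd : twfr_OrdOff A hA M hqM 3)
    (hN1 : ∀ Q : Place (s44e_kA A) (s44e_FF A M), s44e_IsSS A M q hq.out hqM Q →
      (3 : ℤ) ∣ Q.ord (s44e_ubar A M q)) :
    ∃ (S : Finset ℕ) (k : s44e_Sg A M q hq.out hqM → ZMod 3)
      (B : Nat.Primes → (s44e_Sg A M q hq.out hqM → ZMod 3) →+
        (s44e_Sg A M q hq.out hqM → ZMod 3)), twf_CompCells A M hqM 3 S k B := by
  have he : IsUnit (((4 : ℤ)) : ZMod 3) := by decide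
  exact ⟨∅, _, _, m59h3c_compCells A hA M hqM hq3 (d := 3) (e := 4) (by norm_num) (by norm_num) he
    (fun i => hN1 i.1 i.2) hOrd⟩

end Three

end Fermat.Agent.M59
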