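/-
M59 / box [C] Mazur at `(p, q) = (3, 2)`, cell [GEO-32r], sub-cell [ASM3] (helper28).  Prefix `m59h3c_`.

**[GEO-32r] FROM (E2-ord) AT THE EXPONENT `3` AND (N1).**

* `m59h3c_geo_of_ord_n1` : for a level prime `q` with `3 ∤ q`, `q ∤ M`:
  `(∀ A | q, twfr_OrdOff A hA M hqM 3) → (∀ A | q, ∀ Q supersingular, 3 ∣ ord_Q ū) → m59mz_Geo M hqM 3`
  (helper29's `m59h2g_geo_of_ord_comp` + [COMP-3] `m59h3c_compCells_three`).
* `m59h3c_geo32r_of` : `m59mz_Geo32r_stmt` (helper16's leaf, `Mazur/Geo32r.lean`) from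
  (E2-ord) at `(q, m) = (2, 3)` at every odd level and helper23's `m59m32_N1_stmt`.
-/
import Mathlib
import Fermat.Agent.M59.Hesse2.Res3.Comp
import Fermat.Agent.M59.Hesse2.Toric.HesGenGeo
import Fermat.Agent.M59.Mazur.Geo32r
import Fermat.Agent.M59.Mazur.MZ32.N1Stmt

set_option autoImplicit false
set_option linter.unusedSectionVars false
set_option linter.style.haveILetI false
set_option linter.unusedVariables false
set_option synthInstance.maxHeartbeats 400000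
set_option maxHeartbeats 1600000

noncomputable section

namespace Fermat.Agent.M59

open ModularCurve AlgebraicCurve IsLocalRing Fermat.Agent.MZ Fermat.Agent.JT3 Fermat.Agent.S35
  Fermat.Agent.S24 Fermat.Agent.S28 Fermat.Agent.S44 Fermat.Agent.TW

local notation "Qb" => AlgebraicClosure ℚ

/-- **`m59mz_Geo M hqM 3` from (E2-ord) at `3` and (N1)**, level prime `q` with `3 ∤ q`. -/
theorem m59h3c_geo_of_ord_n1 (M : ℕ) {q : ℕ} [hq : Fact q.Prime] [NeZero M] [NeZero q]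
    [NeZero (M * q)] (hqM : ¬ q ∣ M) (hq3 : ¬ 3 ∣ q)
    (hOrd : ∀ (A : ValuationSubring Qb) (hA : A.LiesOverPrime q), twfr_OrdOff A hA M hqM 3)
    (hN1 : ∀ (A : ValuationSubring Qb), A.LiesOverPrime q →
      ∀ Q : Place (s44e_kA A) (s44e_FF A M), s44e_IsSS A M q hq.out hqM Q →
        (3 : ℤ) ∣ Q.ord (s44e_ubar A M q)) :
    m59mz_Geo M hqM 3 := by
  have hq3' : ¬ q ∣ 3 := by
    intro h
    have := (Nat.prime_dvd_prime_iff_eq hq.out Nat.prime_three).mp h
    exact hq3 (this ▸ dvd_rfl)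
  exact m59h2g_geo_of_ord_comp M hqM hq3 (by norm_num) hq3' hOrd
    (fun A hA => m59h3c_compCells_three A hA M hqM hq3 (hOrd A hA) (hN1 A hA))

/-- **[GEO-32r] from (E2-ord) at `(q, m) = (2, 3)` and (N1).** -/
theorem m59h3c_geo32r_of
    (hOrd : ∀ (M : ℕ) [NeZero M] [NeZero (M * 2)] (hM : ¬ 2 ∣ M)
      (A : ValuationSubring Qb) (hA : A.LiesOverPrime 2),
      haveI : Fact (Nat.Prime 2) := ⟨Nat.prime_two⟩
      haveI : NeZero (2 : ℕ) := ⟨by norm_num⟩
      twfr_OrdOff A hA M hM 3)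
    (hN1 : m59m32_N1_stmt) : m59mz_Geo32r_stmt := by
  intro M q _ _ _ _ hqM hq2 hsq r hr hrM hr3
  subst hq2
  refine m59h3c_geo_of_ord_n1 M hqM (by norm_num) (fun A hA => ?_) (fun A hA Q hQ => ?_)
  · exact hOrd M hqM A hA
  · exact hN1 A hA M hqM r hr hrM hr3 Q hQ

end Fermat.Agent.M59
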