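/-
M59 / box [C] Mazur at `(p, q) = (3, 2)` (helper28).  Prefix `m59h3c_`.

**[GEO-32r], [MZ-32] CASE (R) AND [MAZUR] ARE CLOSED** (pure wiring of landed theorems):

* `m59h3c_geo32r : m59mz_Geo32r_stmt`  =  `m59h3c_geo32r_of` fed with
  (E2-ord) at the exponent `3` (helper5, `m59h3o_ordOff_three`) and (N1) (helper23, `m59m32_N1`);
* `m59h3c_threeTwoR : m59m32_ThreeTwoR_stmt`  (helper16's trip `m59mz_threeTwoR_of32r`);
* `m59h3c_threeTwo : m59mz_ThreeTwo_stmt`;
* `m59h3c_mazur : m59m_Mazur_stmt`  (with [GEO-52] `m59h2_geoTwoFive`).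
-/
import Mathlib
import Fermat.Agent.M59.Hesse2.Res3.Geo32r
import Fermat.Agent.M59.Hesse3.Ord.OrdThree
import Fermat.Agent.M59.Mazur.MZ32.N1A0
import Fermat.Agent.M59.Hesse2.GeoTwoFive

set_option autoImplicit false
set_option linter.unusedSectionVars false
set_option linter.style.haveILetI false
set_option linter.unusedVariables false
set_option synthInstance.maxHeartbeats 400000
set_option maxHeartbeats 1600000

noncomputable section

namespace Fermat.Agent.M59

open ModularCurve AlgebraicCurve IsLocalRing Fermat.Agent.MZ Fermat.Agent.JT3 Fermat.Agent.S35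
  Fermat.Agent.S24 Fermat.Agent.S28 Fermat.Agent.S44 Fermat.Agent.TW

/-- **[GEO-32r]**: the cells [GEO] at `(p, q) = (3, 2)` over a squarefree odd `3`-rigid level. -/
theorem m59h3c_geo32r : m59mz_Geo32r_stmt :=
  m59h3c_geo32r_of
    (fun M _ _ hM A hA =>
      haveI : Fact (Nat.Prime 2) := ⟨Nat.prime_two⟩
      haveI : NeZero (2 : ℕ) := ⟨by norm_num⟩
      m59h3o_ordOff_three A hA M hM (by norm_num))
    m59m32_N1

/-- **[MZ-32], case (R).** -/
theorem m59h3c_threeTwoR : m59m32_ThreeTwoR_stmt := m59mz_threeTwoR_of32r m59h3c_geo32r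

/-- **[MZ-32].** -/
theorem m59h3c_threeTwo : m59mz_ThreeTwo_stmt := m59mz_threeTwo_of32r m59h3c_geo32r

/-- **[MAZUR].** -/
theorem m59h3c_mazur : m59m_Mazur_stmt := m59mz_mazur_of5 m59h2_geoTwoFive m59h3c_geo32r

end Fermat.Agent.M59
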